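import Fermat.Agent.DeloneNagell.Order
import Mathlib.Data.Nat.Choose.Sum
import Mathlib.Data.Nat.Choose.Basic
import Mathlib.RingTheory.Coprime.Lemmas
import Mathlib.NumberTheory.Padics.PadicVal.Basic

/-!
# The `3`-power of a binomial cube

With `s = A x ^ 3` the powers of `x y (x θ + y φ)` have coordinates `(a, x² y G, x y² H)` for
universal polynomials in `s`. So the `3 ^ N`-th power of `1 + 3 x y (x θ + y φ)` is, modulo
`3 ^ (N + 1)` times them, `x² y P θ + x y² Q φ` with `P`, `Q` congruent to `1` modulo `3`.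
-/

set_option autoImplicit false

noncomputable section

open Finset

namespace FA.DeloneNagell

/-- The universal coordinates. -/
def uni (s : ℤ) : ℕ → ℤ × ℤ × ℤ
  | 0 => (1, 0, 0)
  | n + 1 => (s * (1 - s) * ((uni s n).2.1 + (uni s n).2.2),
      (uni s n).1 + (1 - s) * (uni s n).2.2, (uni s n).1 + s * (uni s n).2.1)

theorem uni_sub_dvd (s t : ℤ) : ∀ n, s - t ∣ (uni s n).1 - (uni t n).1 ∧
    s - t ∣ (uni s n).2.1 - (uni t n).2.1 ∧ s - t ∣ (uni s n).2.2 - (uni t n).2.2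
  | 0 => by simp [uni]
  | n + 1 => by
    obtain ⟨⟨e, he⟩, ⟨f, hf⟩, ⟨g, hg⟩⟩ := uni_sub_dvd s t n
    simp only [uni]
    refine ⟨⟨(1 - s - t) * ((uni s n).2.1 + (uni s n).2.2) + t * (1 - t) * (f + g), ?_⟩,
      ⟨e - (uni s n).2.2 + (1 - t) * g, ?_⟩, ⟨e + (uni s n).2.1 + t * f, ?_⟩⟩
    · linear_combination t * (1 - t) * hf + t * (1 - t) * hg
    · linear_combination he + (1 - t) * hg
    · linear_combination he + t * hf

/-- The quotient of `3 ^ i C(3 ^ N, i)` by `3 ^ (N + 2)`. -/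
def coef (N i : ℕ) : ℕ := (3 ^ N).choose i * 3 ^ i / 3 ^ (N + 2)

theorem coef_spec (N : ℕ) {i : ℕ} (hi : 2 ≤ i) :
    (3 ^ N).choose i * 3 ^ i = 3 ^ (N + 2) * coef N i := by
  rw [coef, Nat.mul_div_cancel' ?_]
  rcases Nat.lt_or_ge (3 ^ N) i with hlt | hle
  · simp [Nat.choose_eq_zero_of_lt hlt]
  obtain ⟨v, i', hi', rfl⟩ :=
    Nat.exists_eq_pow_mul_and_not_dvd (show i ≠ 0 by omega) 3 (by norm_num)
  have hv : v + 2 ≤ 3 ^ v * i' := by
    have h1 : 3 ^ v ≤ 3 ^ v * i' := Nat.le_mul_of_pos_right _ (Nat.pos_of_ne_zero fun h => by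
      simp [h] at hi')
    have h2 : v < 3 ^ v := Nat.lt_pow_self (by norm_num)
    rcases Nat.eq_zero_or_pos v with rfl | hv
    · omega
    · have : 2 * v + 1 ≤ 3 ^ v := by
        clear h1 h2 hi hle hi'
        induction v, hv using Nat.le_induction with
        | base => norm_num
        | succ v _ ih => rw [pow_succ]; omega
      omega
  obtain ⟨M, hM⟩ : ∃ M, 3 ^ N = M + 1 :=
    ⟨3 ^ N - 1, by have := Nat.one_le_pow N 3 (by norm_num); omega⟩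
  obtain ⟨j, hj⟩ : ∃ j, 3 ^ v * i' = j + 1 := ⟨3 ^ v * i' - 1, by omega⟩
  obtain ⟨e, he⟩ : ∃ e, 3 ^ v * i' = v + 2 + e := ⟨3 ^ v * i' - (v + 2), by omega⟩
  have hkey : i' * ((3 ^ N).choose (3 ^ v * i') * 3 ^ (3 ^ v * i')) =
      3 ^ (N + 2) * (M.choose j * 3 ^ e) := by
    refine mul_left_cancel₀ (pow_ne_zero v (show (3 : ℕ) ≠ 0 by norm_num)) ?_
    have h3 : 3 ^ N * M.choose j = (3 ^ N).choose (3 ^ v * i') * (3 ^ v * i') := by
      rw [hM, hj, Nat.add_one_mul_choose_eq]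
    calc 3 ^ v * (i' * ((3 ^ N).choose (3 ^ v * i') * 3 ^ (3 ^ v * i')))
        = ((3 ^ N).choose (3 ^ v * i') * (3 ^ v * i')) * 3 ^ (3 ^ v * i') := by ring
      _ = 3 ^ N * M.choose j * 3 ^ (v + 2 + e) := by rw [← h3, ← he]
      _ = 3 ^ v * (3 ^ (N + 2) * (M.choose j * 3 ^ e)) := by ring
  exact (((Nat.prime_three.coprime_iff_not_dvd.2 hi').pow_left (N + 2)).dvd_of_dvd_mul_left
    ⟨_, hkey⟩)

/-- The correction to the coordinate of `θ`. -/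
def corG (N : ℕ) (s : ℤ) : ℤ :=
  ∑ i ∈ Finset.Ico 2 (3 ^ N + 1), (coef N i : ℤ) * (uni s i).2.1

/-- The correction to the coordinate of `φ`. -/
def corH (N : ℕ) (s : ℤ) : ℤ :=
  ∑ i ∈ Finset.Ico 2 (3 ^ N + 1), (coef N i : ℤ) * (uni s i).2.2

/-- The correction to the constant coordinate. -/
def corC (N : ℕ) (s : ℤ) : ℤ :=
  ∑ i ∈ Finset.Ico 2 (3 ^ N + 1), (coef N i : ℤ) * (uni s i).1

theorem cor_sub_dvd (N : ℕ) (s t : ℤ) :
    s - t ∣ corG N s - corG N t ∧ s - t ∣ corH N s - corH N t := by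
  simp only [corG, corH, ← sum_sub_distrib, ← mul_sub]
  exact ⟨dvd_sum fun i _ => dvd_mul_of_dvd_right (uni_sub_dvd s t i).2.1 _,
    dvd_sum fun i _ => dvd_mul_of_dvd_right (uni_sub_dvd s t i).2.2 _⟩

variable {A B : ℤ} {θ φ : ℝ}

theorem pow_binomial (h : Basis A B θ φ) {x y : ℤ} (hxy : A * x ^ 3 + B * y ^ 3 = 1) :
    ∀ n : ℕ, ((x : ℝ) * y * (x * θ + y * φ)) ^ n =
      ((uni (A * x ^ 3) n).1 : ℝ) + x ^ 2 * y * (uni (A * x ^ 3) n).2.1 * θ +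
        x * y ^ 2 * (uni (A * x ^ 3) n).2.2 * φ
  | 0 => by simp [uni]
  | n + 1 => by
    have h1 : (A : ℝ) * x ^ 3 + B * y ^ 3 = 1 := by exact_mod_cast hxy
    rw [pow_succ, pow_binomial h hxy n]
    simp only [uni]
    push_cast
    linear_combination
      ((x : ℝ) ^ 4 * y ^ 2 * (uni (A * x ^ 3) n).2.1) * h.sq_left +
      ((x : ℝ) ^ 3 * y ^ 3 * ((uni (A * x ^ 3) n).2.1 + (uni (A * x ^ 3) n).2.2)) * h.mul_both +
      ((x : ℝ) ^ 2 * y ^ 4 * (uni (A * x ^ 3) n).2.2) * h.sq_right +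
      ((A : ℝ) * x ^ 3 * ((uni (A * x ^ 3) n).2.1 + (uni (A * x ^ 3) n).2.2) +
        x ^ 2 * y * (uni (A * x ^ 3) n).2.2 * θ) * h1

/-- **The expansion of the power.** -/
theorem pow_expansion (h : Basis A B θ φ) {x y : ℤ} (hxy : A * x ^ 3 + B * y ^ 3 = 1) {N : ℕ}
    (hN : 1 ≤ N) :
    (1 + 3 * ((x : ℝ) * y * (x * θ + y * φ))) ^ 3 ^ N = 1 + (3 : ℝ) ^ (N + 1) *
      ((3 * corC N (A * x ^ 3) : ℤ) + (x ^ 2 * y * (1 + 3 * corG N (A * x ^ 3)) : ℤ) * θ +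
        (x * y ^ 2 * (1 + 3 * corH N (A * x ^ 3)) : ℤ) * φ) := by
  have hM : 1 ≤ 3 ^ N := Nat.one_le_pow _ _ (by norm_num)
  rw [add_comm, add_pow, ← sum_range_add_sum_Ico _ (show 2 ≤ 3 ^ N + 1 by omega), sum_range_succ,
    sum_range_one]
  have e : ∀ i ∈ Finset.Ico 2 (3 ^ N + 1),
      (3 * ((x : ℝ) * y * (x * θ + y * φ))) ^ i * 1 ^ (3 ^ N - i) * ((3 ^ N).choose i : ℝ) =
        (3 : ℝ) ^ (N + 2) * (((coef N i : ℤ) * (uni (A * x ^ 3) i).1 : ℤ) : ℝ) +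
        (3 : ℝ) ^ (N + 2) * (x ^ 2 * y) * θ *
          (((coef N i : ℤ) * (uni (A * x ^ 3) i).2.1 : ℤ) : ℝ) +
        (3 : ℝ) ^ (N + 2) * (x * y ^ 2) * φ *
          (((coef N i : ℤ) * (uni (A * x ^ 3) i).2.2 : ℤ) : ℝ) := by
    intro i hi
    have hc := congrArg (fun n : ℕ => (n : ℝ)) (coef_spec N (Finset.mem_Ico.1 hi).1)
    push_cast at hc
    rw [mul_pow, pow_binomial h hxy i]
    push_cast
    linear_combination (((uni (A * x ^ 3) i).1 : ℝ) + x ^ 2 * y * (uni (A * x ^ 3) i).2.1 * θ +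
        x * y ^ 2 * (uni (A * x ^ 3) i).2.2 * φ) * hc
  rw [Finset.sum_congr rfl e]
  simp only [sum_add_distrib, ← mul_sum, ← Int.cast_sum, pow_zero, pow_one, one_pow,
    Nat.choose_zero_right, Nat.choose_one_right, mul_one, Nat.cast_one, Nat.cast_pow,
    Nat.cast_ofNat, corC, corG, corH]
  push_cast
  ring

end FA.DeloneNagell

end
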