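import Fermat.Agent.DeloneNagell.Expansion
import Mathlib.RingTheory.Int.Basic
import Mathlib.RingTheory.PrincipalIdealDomain

/-!
# The theorem of Delone and Nagell

Two solutions give dependent units; comparing the coordinates of their `3 ^ N`-th powers for every
`N` shows that the determinant `x₁ y₂ - x₂ y₁` vanishes.
-/

set_option autoImplicit false

noncomputable section

namespace FA.DeloneNagell

theorem exists_cbrt (r : ℝ) : ∃ α : ℝ, α ^ 3 = r := by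
  rcases le_total 0 r with h | h
  · refine ⟨r ^ ((3 : ℕ)⁻¹ : ℝ), ?_⟩
    exact Real.rpow_inv_natCast_pow h (by norm_num)
  · refine ⟨-((-r) ^ ((3 : ℕ)⁻¹ : ℝ)), ?_⟩
    rw [Odd.neg_pow (by decide), Real.rpow_inv_natCast_pow (by linarith) (by norm_num), neg_neg]

theorem exists_basis {A B : ℤ} (hA : A ≠ 0) (hB : B ≠ 0)
    (hcube : ∀ p q : ℤ, q ≠ 0 → A * q ^ 3 ≠ B * p ^ 3) :
    ∃ θ φ : ℝ, Basis A B θ φ := by
  obtain ⟨α, hα⟩ := exists_cbrt A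
  obtain ⟨β, hβ⟩ := exists_cbrt B
  have hA' : (A : ℝ) ≠ 0 := Int.cast_ne_zero.2 hA
  have hB' : (B : ℝ) ≠ 0 := Int.cast_ne_zero.2 hB
  refine ⟨α ^ 2 * β, α * β ^ 2, ⟨by rw [← hα]; ring, by rw [← hα, ← hβ]; ring,
    by rw [← hβ]; ring, fun a b c h => ?_⟩⟩
  obtain ⟨θ, hθ⟩ : ∃ θ, θ = α ^ 2 * β := ⟨_, rfl⟩
  have hθ3 : θ ^ 3 = (A : ℝ) ^ 2 * B := by rw [hθ, ← hα, ← hβ]; ring
  have hlin : ∀ K L : ℤ, (K : ℝ) + L * θ = 0 → K = 0 ∧ L = 0 := by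
    intro K L hKL
    by_cases hL : L = 0
    · subst hL
      exact ⟨by simpa using hKL, rfl⟩
    exfalso
    have hL' : (L : ℝ) ≠ 0 := Int.cast_ne_zero.2 hL
    have h1 : (A : ℝ) * (-(K : ℝ)) ^ 3 = B * ((A : ℝ) * L) ^ 3 := by
      have : -(K : ℝ) = L * θ := by linarith
      rw [this, mul_pow, hθ3]
      ring
    have hK : K ≠ 0 := fun h0 => by
      rw [h0, Int.cast_zero, neg_zero, zero_pow three_ne_zero, mul_zero] at h1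
      simp [hA', hB', hL'] at h1
    refine hcube (A * L) (-K) (neg_ne_zero.2 hK) ?_
    exact_mod_cast h1
  have h1 : ((b : ℝ) * A) * (a + b * (α ^ 2 * β) + c * (α * β ^ 2)) -
      c * ((α ^ 2 * β) * (a + b * (α ^ 2 * β) + c * (α * β ^ 2))) = 0 := by rw [h]; ring
  have h2 : ((a * b * A - c ^ 2 * A * B : ℤ) : ℝ) + ((b ^ 2 * A - a * c : ℤ) : ℝ) * θ = 0 := by
    rw [hθ]
    push_cast
    rw [← hα] at h1
    rw [← hα, ← hβ]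
    linear_combination h1
  obtain ⟨e1, e2⟩ := hlin _ _ h2
  have e3 : a * b = c ^ 2 * B := mul_right_cancel₀ hA (by linarith)
  by_cases hb : b = 0
  · subst hb
    have hc : c = 0 := by
      have : c ^ 2 * B = 0 := by rw [← e3, mul_zero]
      simpa [hB] using this
    subst hc
    exact ⟨by simpa using h, rfl, rfl⟩
  exfalso
  have hc : c ≠ 0 := by
    rintro rfl
    simp [hA, hb] at e2
  refine hcube c b hb ?_
  linear_combination b * e2 + c * e3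

theorem pow_one_add {A B : ℤ} {θ φ : ℝ} (h : Basis A B θ φ) (K : ℤ) (L : ℤ × ℤ × ℤ) :
    ∀ a : ℕ, ∃ e : ℤ × ℤ × ℤ,
      (1 + (K : ℝ) * val θ φ L) ^ a = 1 + K * a * val θ φ L + (K : ℝ) ^ 2 * val θ φ e
  | 0 => ⟨(0, 0, 0), by simp [val]⟩
  | a + 1 => by
    obtain ⟨e, he⟩ := pow_one_add h K L a
    refine ⟨(a * (mul3 A B L L).1 + e.1 + K * (mul3 A B e L).1,
      a * (mul3 A B L L).2.1 + e.2.1 + K * (mul3 A B e L).2.1,
      a * (mul3 A B L L).2.2 + e.2.2 + K * (mul3 A B e L).2.2), ?_⟩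
    have h1 := val_mul3 h L L
    have h2 := val_mul3 h e L
    rw [pow_succ, he]
    simp only [val] at h1 h2 ⊢
    push_cast at h1 h2 ⊢
    linear_combination (-(a : ℝ) * K ^ 2) * h1 - (K : ℝ) ^ 3 * h2

variable {A B : ℤ}

/-- The unit of a solution. -/
def unitOf (x y : ℤ) : ℤ × ℤ × ℤ := (1, 3 * x ^ 2 * y, 3 * x * y ^ 2)

theorem nm_unitOf {x y : ℤ} (h : A * x ^ 3 + B * y ^ 3 = 1) : nm A B (unitOf x y) = 1 := by
  simp only [nm, unitOf]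
  linear_combination (27 * A * B * x ^ 3 * y ^ 3) * h

/-- **Delone and Nagell**, for a cubic irrationality. -/
theorem delone_nagell_irrational (hA : A ≠ 0) (hB : B ≠ 0)
    (hcube : ∀ p q : ℤ, q ≠ 0 → A * q ^ 3 ≠ B * p ^ 3) {x₁ y₁ x₂ y₂ : ℤ}
    (h₁ : A * x₁ ^ 3 + B * y₁ ^ 3 = 1) (h₂ : A * x₂ ^ 3 + B * y₂ ^ 3 = 1)
    (hx₁ : x₁ * y₁ ≠ 0) (hx₂ : x₂ * y₂ ≠ 0) : x₁ = x₂ ∧ y₁ = y₂ := by
  obtain ⟨θ, φ, h⟩ := exists_basis hA hB hcube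
  have hv1 : val θ φ (unitOf x₂ y₂) ≠ 1 := fun he => by
    have := h.indep 0 (3 * x₂ ^ 2 * y₂) (3 * x₂ * y₂ ^ 2) (by
      simp only [val, unitOf] at he
      push_cast at he ⊢
      linarith)
    obtain ⟨-, e, -⟩ := this
    rw [show 3 * x₂ ^ 2 * y₂ = 3 * x₂ * (x₂ * y₂) by ring] at e
    simp [hx₂, left_ne_zero_of_mul hx₂] at e
  obtain ⟨a, z, ha, hrel⟩ := dependent h (nm_unitOf h₁) (nm_unitOf h₂) hv1
  obtain ⟨P, hP⟩ : ∃ P : ℕ → ℤ → ℤ, P = fun N s => 1 + 3 * corG N s := ⟨_, rfl⟩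
  obtain ⟨Q, hQ⟩ : ∃ Q : ℕ → ℤ → ℤ, Q = fun N s => 1 + 3 * corH N s := ⟨_, rfl⟩
  obtain ⟨s₁, hs₁⟩ : ∃ s, s = A * x₁ ^ 3 := ⟨_, rfl⟩
  obtain ⟨s₂, hs₂⟩ : ∃ s, s = A * x₂ ^ 3 := ⟨_, rfl⟩
  -- the two coordinates of every power are proportional
  have hcoord : ∀ N : ℕ, 1 ≤ N → ∃ σ : ℤ,
      (3 : ℤ) ^ (N + 1) ∣ a * (x₁ ^ 2 * y₁ * P N s₁) - σ * (x₂ ^ 2 * y₂ * P N s₂) ∧
      (3 : ℤ) ^ (N + 1) ∣ a * (x₁ * y₁ ^ 2 * Q N s₁) - σ * (x₂ * y₂ ^ 2 * Q N s₂) := by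
    intro N hN
    obtain ⟨L₁, hL₁⟩ : ∃ L : ℤ × ℤ × ℤ, L = (3 * corC N s₁, x₁ ^ 2 * y₁ * P N s₁,
      x₁ * y₁ ^ 2 * Q N s₁) := ⟨_, rfl⟩
    obtain ⟨L₂, hL₂⟩ : ∃ L : ℤ × ℤ × ℤ, L = (3 * corC N s₂, x₂ ^ 2 * y₂ * P N s₂,
      x₂ * y₂ ^ 2 * Q N s₂) := ⟨_, rfl⟩
    obtain ⟨K, hK⟩ : ∃ K : ℤ, K = 3 ^ (N + 1) := ⟨_, rfl⟩
    have hu1 : val θ φ (unitOf x₁ y₁) ^ 3 ^ N = 1 + (K : ℝ) * val θ φ L₁ := by
      have e : val θ φ (unitOf x₁ y₁) = 1 + 3 * ((x₁ : ℝ) * y₁ * (x₁ * θ + y₁ * φ)) := by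
        simp only [val, unitOf]
        push_cast
        ring
      rw [e, pow_expansion h h₁ hN, hK, hL₁, hs₁, hP, hQ]
      simp only [val]
      push_cast
      ring
    have hu2 : val θ φ (unitOf x₂ y₂) ^ 3 ^ N = 1 + (K : ℝ) * val θ φ L₂ := by
      have e : val θ φ (unitOf x₂ y₂) = 1 + 3 * ((x₂ : ℝ) * y₂ * (x₂ * θ + y₂ * φ)) := by
        simp only [val, unitOf]
        push_cast
        ring
      rw [e, pow_expansion h h₂ hN, hK, hL₂, hs₂, hP, hQ]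
      simp only [val]
      push_cast
      ring
    have hK0 : (K : ℝ) ≠ 0 := by rw [hK]; push_cast; positivity
    have hdiv : ∀ {u v w : ℤ}, u + K * w = v → K ∣ u - v := fun {u v w} hh =>
      ⟨-w, by linarith⟩
    obtain ⟨e₁, he₁⟩ := pow_one_add h K L₁ a
    obtain ⟨n, rfl | rfl⟩ := z.eq_nat_or_neg
    · obtain ⟨e₂, he₂⟩ := pow_one_add h K L₂ n
      have hpow := congrArg (· ^ 3 ^ N) hrel
      simp only [zpow_natCast] at hpow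
      rw [← pow_mul, mul_comm, pow_mul, hu1, ← pow_mul, mul_comm n, pow_mul, hu2, he₁, he₂] at hpow
      have hz : ((a * L₁.1 + K * e₁.1 - n * L₂.1 - K * e₂.1 : ℤ) : ℝ) +
          ((a * L₁.2.1 + K * e₁.2.1 - n * L₂.2.1 - K * e₂.2.1 : ℤ) : ℝ) * θ +
          ((a * L₁.2.2 + K * e₁.2.2 - n * L₂.2.2 - K * e₂.2.2 : ℤ) : ℝ) * φ = 0 := by
        refine (mul_eq_zero.1 ?_).resolve_left hK0
        simp only [val] at hpow
        push_cast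
        linear_combination hpow
      obtain ⟨-, k1, k2⟩ := h.indep _ _ _ hz
      rw [← hK]
      refine ⟨n, hdiv (w := e₁.2.1 - e₂.2.1) ?_, hdiv (w := e₁.2.2 - e₂.2.2) ?_⟩
      · rw [hL₁, hL₂] at k1; linarith
      · rw [hL₁, hL₂] at k2; linarith
    · obtain ⟨e₂, he₂⟩ := pow_one_add h K L₂ n
      have hpow : (1 + (K : ℝ) * val θ φ L₁) ^ a * (1 + (K : ℝ) * val θ φ L₂) ^ n = 1 := by
        rw [← hu1, ← hu2, ← pow_mul, ← pow_mul, mul_comm _ a, mul_comm _ n, pow_mul, pow_mul,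
          ← mul_pow, hrel, zpow_neg, zpow_natCast,
          inv_mul_cancel₀ (pow_ne_zero _ (val_pos h (nm_unitOf h₂)).ne'), one_pow]
      rw [he₁, he₂] at hpow
      obtain ⟨L', hL'⟩ : ∃ L', L' = mul3 A B
          (a * L₁.1 + K * e₁.1, a * L₁.2.1 + K * e₁.2.1, a * L₁.2.2 + K * e₁.2.2)
          (n * L₂.1 + K * e₂.1, n * L₂.2.1 + K * e₂.2.1, n * L₂.2.2 + K * e₂.2.2) := ⟨_, rfl⟩
      have hz : ((a * L₁.1 + K * e₁.1 + n * L₂.1 + K * e₂.1 + K * L'.1 : ℤ) : ℝ) +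
          ((a * L₁.2.1 + K * e₁.2.1 + n * L₂.2.1 + K * e₂.2.1 + K * L'.2.1 : ℤ) : ℝ) * θ +
          ((a * L₁.2.2 + K * e₁.2.2 + n * L₂.2.2 + K * e₂.2.2 + K * L'.2.2 : ℤ) : ℝ) * φ = 0 := by
        refine (mul_eq_zero.1 ?_).resolve_left hK0
        have hp := val_mul3 h
          (a * L₁.1 + K * e₁.1, a * L₁.2.1 + K * e₁.2.1, a * L₁.2.2 + K * e₁.2.2)
          (n * L₂.1 + K * e₂.1, n * L₂.2.1 + K * e₂.2.1, n * L₂.2.2 + K * e₂.2.2)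
        rw [← hL'] at hp
        simp only [val] at hpow hp
        push_cast at hpow hp ⊢
        linear_combination hpow + (K : ℝ) ^ 2 * hp
      obtain ⟨-, k1, k2⟩ := h.indep _ _ _ hz
      rw [← hK]
      refine ⟨-n, hdiv (w := e₁.2.1 + e₂.2.1 + L'.2.1) ?_,
        hdiv (w := e₁.2.2 + e₂.2.2 + L'.2.2) ?_⟩
      · rw [hL₁, hL₂] at k1; linarith
      · rw [hL₁, hL₂] at k2; linarith
  obtain ⟨Δ, hΔ⟩ : ∃ Δ, Δ = x₁ * y₂ - x₂ * y₁ := ⟨_, rfl⟩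
  have hcubes : x₁ ^ 3 - x₂ ^ 3 = B * (x₁ ^ 3 * y₂ ^ 3 - x₂ ^ 3 * y₁ ^ 3) := by
    linear_combination -x₁ ^ 3 * h₂ + x₂ ^ 3 * h₁
  have hs : Δ ∣ s₁ - s₂ := by
    rw [hs₁, hs₂, ← mul_sub, hcubes, ← mul_pow, ← mul_pow, hΔ]
    exact dvd_mul_of_dvd_right (dvd_mul_of_dvd_right (sub_dvd_pow_sub_pow _ _ 3) _) _
  -- hence the determinant is divisible by every power of three
  have hZ : (a : ℤ) * (x₁ * y₁ * (x₂ * y₂)) * Δ = 0 := by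
    obtain ⟨Z, hZ⟩ : ∃ Z, Z = (a : ℤ) * (x₁ * y₁ * (x₂ * y₂)) * Δ := ⟨_, rfl⟩
    rw [← hZ]
    refine Int.eq_zero_of_dvd_of_natAbs_lt_natAbs (d := (3 : ℤ) ^ (Z.natAbs + 1 + 1)) ?_ ?_
    swap
    · rw [Int.natAbs_pow]
      exact (Nat.lt_succ_self _).trans ((Nat.lt_pow_self (by norm_num)).trans'
        (Nat.lt_succ_self _))
    obtain ⟨σ, hd1, hd2⟩ := hcoord (Z.natAbs + 1) (Nat.succ_pos _)
    obtain ⟨cG, hcG⟩ := hs.trans (cor_sub_dvd (Z.natAbs + 1) s₁ s₂).1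
    obtain ⟨cH, hcH⟩ := hs.trans (cor_sub_dvd (Z.natAbs + 1) s₁ s₂).2
    simp only [hP, hQ] at hd1 hd2
    generalize corG (Z.natAbs + 1) s₁ = g₁ at hd1 hcG
    generalize corG (Z.natAbs + 1) s₂ = g₂ at hd1 hcG
    generalize corH (Z.natAbs + 1) s₁ = f₁ at hd2 hcH
    generalize corH (Z.natAbs + 1) s₂ = f₂ at hd2 hcH
    have hd3 : (3 : ℤ) ^ (Z.natAbs + 1 + 1) ∣
        Z * ((1 + 3 * g₁) * (1 + 3 * f₂) +
          3 * (x₂ * y₁) * (cG - cH + 3 * (cG * f₂ - g₂ * cH))) := by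
      refine (dvd_sub (hd1.mul_right (x₂ * y₂ ^ 2 * (1 + 3 * f₂)))
        (hd2.mul_right (x₂ ^ 2 * y₂ * (1 + 3 * g₂)))).trans (dvd_of_eq ?_)
      rw [hZ, hΔ]
      rw [hΔ] at hcG hcH
      linear_combination (3 * (a : ℤ) * (x₁ * y₁ * (x₂ * y₂)) * (x₂ * y₁) * (1 + 3 * f₂)) * hcG +
        (-(3 * (a : ℤ) * (x₁ * y₁ * (x₂ * y₂)) * (x₂ * y₁) * (1 + 3 * g₂))) * hcH
    refine IsCoprime.dvd_of_dvd_mul_right (IsCoprime.pow_left ?_) hd3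
    refine ⟨-(g₁ + f₂ + 3 * g₁ * f₂ + x₂ * y₁ * (cG - cH + 3 * (cG * f₂ - g₂ * cH))), 1, ?_⟩
    ring
  have hΔ0 : Δ = 0 := by
    rcases mul_eq_zero.1 hZ with h0 | h0
    · rcases mul_eq_zero.1 h0 with h0 | h0
      · exact absurd h0 (Int.natCast_ne_zero.2 ha.ne')
      · exact absurd h0 (mul_ne_zero hx₁ hx₂)
    · exact h0
  rw [hΔ0, zero_dvd_iff, sub_eq_zero, hs₁, hs₂] at hs
  obtain rfl : x₁ = x₂ := (Odd.pow_inj (by decide : Odd 3)).1 (mul_left_cancel₀ hA hs)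
  refine ⟨rfl, (Odd.pow_inj (by decide : Odd 3)).1 (mul_left_cancel₀ hB ?_)⟩
  linarith

/-- When `A / B` is a cube there is no solution with both coordinates nonzero. -/
theorem no_solution_of_cube (hA : A ≠ 0) (hB : B ≠ 0) {p q : ℤ} (hq : q ≠ 0)
    (h : A * q ^ 3 = B * p ^ 3)
    {x y : ℤ} (hxy : A * x ^ 3 + B * y ^ 3 = 1) : x * y = 0 := by
  -- `q ^ 3 = B * (p x) ^ 3 + B * (q y) ^ 3`
  have hcop : IsCoprime A B := ⟨x ^ 3, y ^ 3, by linarith⟩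
  obtain ⟨g, p', q', hp', hq', hg, hu⟩ : ∃ g p' q' : ℤ, p = g * p' ∧ q = g * q' ∧ g ≠ 0 ∧
      IsUnit (GCDMonoid.gcd p' q') := by
    obtain ⟨p', q', hp', hq', hu⟩ := extract_gcd p q
    exact ⟨_, p', q', hp', hq', fun h0 => hq (by rw [hq', h0, zero_mul]), hu⟩
  have hpq : IsCoprime p' q' := IsRelPrime.isCoprime (gcd_isUnit_iff_isRelPrime.1 hu)
  have h' : A * q' ^ 3 = B * p' ^ 3 := by
    refine mul_left_cancel₀ (pow_ne_zero 3 hg) ?_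
    rw [hp', hq'] at h
    linear_combination h
  obtain ⟨k, hk⟩ : q' ^ 3 ∣ B := (hpq.symm.pow).dvd_of_dvd_mul_right ⟨A, by rw [← h']; ring⟩
  have hq0 : q' ≠ 0 := fun h0 => hq (by rw [hq', h0, mul_zero])
  have hAk : A = k * p' ^ 3 := by
    refine mul_right_cancel₀ (pow_ne_zero 3 hq0) ?_
    rw [h', hk]
    ring
  have hk1 : k * ((p' * x) ^ 3 + (q' * y) ^ 3) = 1 := by
    rw [← hxy, hAk, hk]
    ring
  obtain ⟨r, hr⟩ : ∃ r : ℤ, (p' * x) ^ 3 + (q' * y) ^ 3 = r ^ 3 ∧ (r = 1 ∨ r = -1) := by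
    rcases Int.eq_one_or_neg_one_of_mul_eq_one (by rw [mul_comm]; exact hk1) with e | e
    · exact ⟨1, by rw [e]; norm_num, Or.inl rfl⟩
    · exact ⟨-1, by rw [e]; norm_num, Or.inr rfl⟩
  obtain ⟨hr, hr'⟩ := hr
  by_contra hne
  have hp0 : p' ≠ 0 := fun h0 => hA (by rw [hAk, h0]; simp)
  have hX : p' * x ≠ 0 := mul_ne_zero hp0 (left_ne_zero_of_mul hne)
  have hY : q' * y ≠ 0 := mul_ne_zero hq0 (right_ne_zero_of_mul hne)
  rcases hr' with rfl | rfl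
  all_goals
    have hfac : (p' * x + q' * y) *
        ((p' * x) ^ 2 - (p' * x) * (q' * y) + (q' * y) ^ 2) = _ := (by ring : _ = _).trans hr
    generalize p' * x = X at hX hfac
    generalize q' * y = Y at hY hfac
    have h4 := Int.isUnit_iff.1 (isUnit_of_mul_isUnit_left (x := X + Y)
      (y := X ^ 2 - X * Y + Y ^ 2) (by rw [hfac]; norm_num))
    have h5 : 1 ≤ |X| := Int.one_le_abs hX
    have h6 : 1 ≤ |Y| := Int.one_le_abs hY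
    have h7 : X ^ 2 ≥ 1 := by nlinarith [sq_abs X]
    have h8 : Y ^ 2 ≥ 1 := by nlinarith [sq_abs Y]
    rcases h4 with e | e <;> rw [e] at hfac <;> nlinarith [sq_nonneg (X - Y), sq_nonneg (X + Y)]

/-- **The theorem of Delone and Nagell.** -/
theorem delone_nagell (hA : A ≠ 0) (hB : B ≠ 0) {x₁ y₁ x₂ y₂ : ℤ}
    (h₁ : A * x₁ ^ 3 + B * y₁ ^ 3 = 1) (h₂ : A * x₂ ^ 3 + B * y₂ ^ 3 = 1)
    (hx₁ : x₁ * y₁ ≠ 0) (hx₂ : x₂ * y₂ ≠ 0) : x₁ = x₂ ∧ y₁ = y₂ := by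
  by_cases hcube : ∀ p q : ℤ, q ≠ 0 → A * q ^ 3 ≠ B * p ^ 3
  · exact delone_nagell_irrational hA hB hcube h₁ h₂ hx₁ hx₂
  · push Not at hcube
    obtain ⟨p, q, hq, h⟩ := hcube
    exact absurd (no_solution_of_cube hA hB hq h h₁) hx₁

end FA.DeloneNagell

end
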