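import Mathlib.Analysis.SpecialFunctions.Log.Basic
import Mathlib.Analysis.SpecialFunctions.Pow.Real
import Mathlib.Data.Fintype.Pigeonhole
import Mathlib.Order.Interval.Finset.Basic

/-!
# Norm one units of a pure cubic order

The order with basis `1, θ, φ`, where `θ ^ 2 = A φ`, `θ φ = A B` and `φ ^ 2 = B θ`. Its norm one
units of bounded size are finitely many, so any two of them have dependent logarithms.
-/

set_option autoImplicit false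

noncomputable section

namespace FA.DeloneNagell

/-- The three relations and the independence of the basis. -/
structure Basis (A B : ℤ) (θ φ : ℝ) : Prop where
  sq_left : θ ^ 2 = A * φ
  mul_both : θ * φ = A * B
  sq_right : φ ^ 2 = B * θ
  indep : ∀ a b c : ℤ, (a : ℝ) + b * θ + c * φ = 0 → a = 0 ∧ b = 0 ∧ c = 0

/-- The real number of a triple. -/
def val (θ φ : ℝ) (u : ℤ × ℤ × ℤ) : ℝ := u.1 + u.2.1 * θ + u.2.2 * φ

/-- The product. -/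
def mul3 (A B : ℤ) (u v : ℤ × ℤ × ℤ) : ℤ × ℤ × ℤ :=
  (u.1 * v.1 + A * B * (u.2.1 * v.2.2 + u.2.2 * v.2.1),
    u.1 * v.2.1 + u.2.1 * v.1 + B * u.2.2 * v.2.2,
    u.1 * v.2.2 + u.2.2 * v.1 + A * u.2.1 * v.2.1)

/-- The product of the two other conjugates. -/
def adj (A B : ℤ) (u : ℤ × ℤ × ℤ) : ℤ × ℤ × ℤ :=
  (u.1 ^ 2 - A * B * u.2.1 * u.2.2, B * u.2.2 ^ 2 - u.1 * u.2.1, A * u.2.1 ^ 2 - u.1 * u.2.2)

/-- The norm. -/
def nm (A B : ℤ) (u : ℤ × ℤ × ℤ) : ℤ :=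
  u.1 ^ 3 + A ^ 2 * B * u.2.1 ^ 3 + A * B ^ 2 * u.2.2 ^ 3 - 3 * A * B * u.1 * u.2.1 * u.2.2

theorem nm_mul3 (A B : ℤ) (u v : ℤ × ℤ × ℤ) : nm A B (mul3 A B u v) = nm A B u * nm A B v := by
  simp only [nm, mul3]
  ring

theorem nm_adj (A B : ℤ) (u : ℤ × ℤ × ℤ) : nm A B (adj A B u) = nm A B u ^ 2 := by
  simp only [nm, adj]
  ring

variable {A B : ℤ} {θ φ : ℝ}

theorem val_mul3 (h : Basis A B θ φ) (u v : ℤ × ℤ × ℤ) :
    val θ φ (mul3 A B u v) = val θ φ u * val θ φ v := by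
  simp only [val, mul3]
  push_cast
  linear_combination (-((u.2.1 : ℝ) * v.2.1)) * h.sq_left +
    (-((u.2.1 : ℝ) * v.2.2 + u.2.2 * v.2.1)) * h.mul_both + (-((u.2.2 : ℝ) * v.2.2)) * h.sq_right

theorem val_mul_adj (h : Basis A B θ φ) (u : ℤ × ℤ × ℤ) :
    val θ φ u * val θ φ (adj A B u) = nm A B u := by
  rw [← val_mul3 h]
  simp only [val, mul3, adj, nm]
  push_cast
  ring

theorem four_val_adj (h : Basis A B θ φ) (u : ℤ × ℤ × ℤ) :
    4 * val θ φ (adj A B u) = (2 * (u.1 : ℝ) - u.2.1 * θ - u.2.2 * φ) ^ 2 +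
      3 * ((u.2.1 : ℝ) * θ - u.2.2 * φ) ^ 2 := by
  simp only [val, adj]
  push_cast
  linear_combination (-4 * (u.2.1 : ℝ) ^ 2) * h.sq_left + (4 * (u.2.1 : ℝ) * u.2.2) * h.mul_both +
    (-4 * (u.2.2 : ℝ) ^ 2) * h.sq_right

theorem val_pos (h : Basis A B θ φ) {u : ℤ × ℤ × ℤ} (hu : nm A B u = 1) : 0 < val θ φ u := by
  have h1 := val_mul_adj h u
  rw [hu, Int.cast_one] at h1
  have h2 := four_val_adj h u
  have h4 : 0 ≤ val θ φ (adj A B u) := by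
    have : 0 ≤ 4 * val θ φ (adj A B u) := by rw [h2]; positivity
    linarith
  by_contra hle
  have := mul_nonpos_iff.2 (Or.inr ⟨not_lt.1 hle, h4⟩)
  linarith

theorem val_adj_eq (h : Basis A B θ φ) {u : ℤ × ℤ × ℤ} (hu : nm A B u = 1) :
    val θ φ (adj A B u) = (val θ φ u)⁻¹ := by
  have h1 := val_mul_adj h u
  rw [hu, Int.cast_one] at h1
  exact eq_inv_of_mul_eq_one_right h1

theorem ne_zero_of_basis (h : Basis A B θ φ) : θ ≠ 0 ∧ φ ≠ 0 := by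
  constructor <;> intro h0
  · have := (h.indep 0 1 0 (by simp [h0])).2.1
    omega
  · have := (h.indep 0 0 1 (by simp [h0])).2.2
    omega

/-- The units in a fixed band are finitely many. -/
theorem finite_band (h : Basis A B θ φ) (V : ℝ) :
    {u : ℤ × ℤ × ℤ | nm A B u = 1 ∧ 1 ≤ val θ φ u ∧ val θ φ u ≤ V}.Finite := by
  obtain ⟨hθ, hφ⟩ := ne_zero_of_basis h
  obtain ⟨R, hR⟩ : ∃ R : ℤ, R = ⌈(V + 4) * (1 + |θ|⁻¹ + |φ|⁻¹)⌉ := ⟨_, rfl⟩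
  refine ((Set.finite_Icc (-R) R).prod
    ((Set.finite_Icc (-R) R).prod (Set.finite_Icc (-R) R))).subset ?_
  rintro ⟨a, b, c⟩ ⟨hu, h1, h2⟩
  have hq := four_val_adj h (a, b, c)
  rw [val_adj_eq h hu] at hq
  simp only [val] at h1 h2 hq
  have h3 : ((a : ℝ) + b * θ + c * φ)⁻¹ ≤ 1 := inv_le_one_of_one_le₀ h1
  have e1 : |2 * (a : ℝ) - b * θ - c * φ| ≤ 2 := abs_le_of_sq_le_sq (by
    nlinarith [sq_nonneg ((b : ℝ) * θ - c * φ)]) two_pos.le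
  have e2 : |(b : ℝ) * θ - c * φ| ≤ 2 := abs_le_of_sq_le_sq (by
    nlinarith [sq_nonneg (2 * (a : ℝ) - b * θ - c * φ), sq_nonneg ((b : ℝ) * θ - c * φ)]) two_pos.le
  rw [abs_le] at e1 e2
  have hV : 0 ≤ V + 4 := by linarith
  have k1 : |(a : ℝ)| ≤ V + 4 := abs_le.2 ⟨by linarith, by linarith⟩
  have k2 : |(b : ℝ) * θ| ≤ V + 4 := abs_le.2 ⟨by linarith, by linarith⟩
  have k3 : |(c : ℝ) * φ| ≤ V + 4 := abs_le.2 ⟨by linarith, by linarith⟩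
  have p1 : 0 ≤ |θ|⁻¹ := inv_nonneg.2 (abs_nonneg _)
  have p2 : 0 ≤ |φ|⁻¹ := inv_nonneg.2 (abs_nonneg _)
  have q1 : |(b : ℝ)| ≤ (V + 4) * |θ|⁻¹ := by
    rw [abs_mul] at k2
    rw [← div_eq_mul_inv, le_div_iff₀ (abs_pos.2 hθ)]
    exact k2
  have q2 : |(c : ℝ)| ≤ (V + 4) * |φ|⁻¹ := by
    rw [abs_mul] at k3
    rw [← div_eq_mul_inv, le_div_iff₀ (abs_pos.2 hφ)]
    exact k3
  have m1 : 0 ≤ (V + 4) * |θ|⁻¹ := mul_nonneg hV p1
  have m2 : 0 ≤ (V + 4) * |φ|⁻¹ := mul_nonneg hV p2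
  have hb : ∀ z : ℤ, |(z : ℝ)| ≤ (V + 4) * (1 + |θ|⁻¹ + |φ|⁻¹) →
      z ∈ Set.Icc (-R) R := fun z hz => by
    have h4 := hz.trans (Int.le_ceil _)
    rw [← hR, ← Int.cast_abs, Int.cast_le, abs_le] at h4
    exact h4
  exact ⟨hb a (k1.trans (by linarith)), hb b (q1.trans (by linarith)),
    hb c (q2.trans (by linarith))⟩

theorem nm_one : nm A B (1, 0, 0) = 1 := by simp [nm]

/-- Powers with natural exponents. -/
def pow3 (A B : ℤ) (u : ℤ × ℤ × ℤ) : ℕ → ℤ × ℤ × ℤ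
  | 0 => (1, 0, 0)
  | n + 1 => mul3 A B (pow3 A B u n) u

theorem val_pow3 (h : Basis A B θ φ) (u : ℤ × ℤ × ℤ) :
    ∀ n, val θ φ (pow3 A B u n) = val θ φ u ^ n
  | 0 => by simp [pow3, val]
  | n + 1 => by rw [pow3, val_mul3 h, val_pow3 h u n, pow_succ]

theorem nm_pow3 (A B : ℤ) (u : ℤ × ℤ × ℤ) : ∀ n, nm A B (pow3 A B u n) = nm A B u ^ n
  | 0 => by simp [pow3, nm]
  | n + 1 => by rw [pow3, nm_mul3, nm_pow3 A B u n, pow_succ]

theorem exists_zpow (h : Basis A B θ φ) {v : ℤ × ℤ × ℤ} (hv : nm A B v = 1) (p : ℤ) :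
    ∃ w, nm A B w = 1 ∧ val θ φ w = val θ φ v ^ p := by
  obtain ⟨n, rfl | rfl⟩ := p.eq_nat_or_neg
  · exact ⟨pow3 A B v n, by rw [nm_pow3, hv, one_pow], by rw [val_pow3 h, zpow_natCast]⟩
  · exact ⟨pow3 A B (adj A B v) n, by rw [nm_pow3, nm_adj, hv, one_pow, one_pow],
      by rw [val_pow3 h, val_adj_eq h hv, zpow_neg, zpow_natCast, inv_pow]⟩

/-- **Two norm one units are dependent.** -/
theorem dependent (h : Basis A B θ φ) {u v : ℤ × ℤ × ℤ} (hu : nm A B u = 1) (hv : nm A B v = 1)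
    (hv1 : val θ φ v ≠ 1) :
    ∃ (a : ℕ) (z : ℤ), 0 < a ∧ val θ φ u ^ a = val θ φ v ^ z := by
  wlog hgt : 1 < val θ φ v generalizing v with H
  · have hpos := val_pos h hv
    have hlt : val θ φ v < 1 := lt_of_le_of_ne (not_lt.1 hgt) hv1
    have hinv := val_adj_eq h hv
    obtain ⟨a, z, ha, he⟩ := H (v := adj A B v) (by rw [nm_adj, hv, one_pow])
      (by rw [hinv]; exact ne_of_gt ((one_lt_inv₀ hpos).2 hlt))
      (by rw [hinv]; exact (one_lt_inv₀ hpos).2 hlt)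
    exact ⟨a, -z, ha, by rw [he, hinv, inv_zpow, zpow_neg]⟩
  obtain ⟨L, hL⟩ : ∃ L, L = Real.log (val θ φ v) := ⟨_, rfl⟩
  have hL0 : 0 < L := hL ▸ Real.log_pos hgt
  have hex : ∀ q : ℕ, ∃ w : ℤ × ℤ × ℤ, ∃ p : ℤ, nm A B w = 1 ∧ 1 ≤ val θ φ w ∧
      val θ φ w ≤ val θ φ v ∧ val θ φ w = val θ φ u ^ q * val θ φ v ^ p := fun q => by
    obtain ⟨p, hp⟩ : ∃ p : ℤ, p = ⌊(q : ℝ) * Real.log (val θ φ u) / L⌋ := ⟨_, rfl⟩
    obtain ⟨w, hw, hwv⟩ := exists_zpow h hv (-p)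
    have he : val θ φ (mul3 A B (pow3 A B u q) w) = val θ φ u ^ q * val θ φ v ^ (-p) := by
      rw [val_mul3 h, val_pow3 h, hwv]
    have hn : nm A B (mul3 A B (pow3 A B u q) w) = 1 := by
      rw [nm_mul3, nm_pow3, hu, hw, one_pow, one_mul]
    refine ⟨_, -p, hn, ?_, ?_, he⟩
    all_goals
      have h1 : Real.log (val θ φ (mul3 A B (pow3 A B u q) w)) =
          (q : ℝ) * Real.log (val θ φ u) - p * L := by
        rw [he, Real.log_mul (pow_ne_zero _ (val_pos h hu).ne')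
          (zpow_ne_zero _ (val_pos h hv).ne'), Real.log_pow, Real.log_zpow, hL]
        push_cast
        ring
      have h2 := Int.floor_le ((q : ℝ) * Real.log (val θ φ u) / L)
      have h3 := Int.lt_floor_add_one ((q : ℝ) * Real.log (val θ φ u) / L)
      rw [← hp, le_div_iff₀ hL0] at h2
      rw [← hp, div_lt_iff₀ hL0] at h3
    · exact (Real.log_nonneg_iff (val_pos h hn)).1 (by linarith)
    · exact (Real.log_le_log_iff (val_pos h hn) (val_pos h hv)).1 (by rw [← hL]; linarith)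
  choose W P hW1 hW2 hW3 hW4 using hex
  obtain ⟨q₁, -, q₂, -, hlt, heq⟩ := Set.infinite_univ.exists_lt_map_eq_of_mapsTo (f := W)
    (t := {w | nm A B w = 1 ∧ 1 ≤ val θ φ w ∧ val θ φ w ≤ val θ φ v})
    (fun q _ => ⟨hW1 q, hW2 q, hW3 q⟩) (finite_band h (val θ φ v))
  refine ⟨q₂ - q₁, P q₁ - P q₂, Nat.sub_pos_of_lt hlt, ?_⟩
  have h4 := hW4 q₁
  rw [heq, hW4 q₂] at h4
  have hu0 := (val_pos h hu).ne'
  have hv0 := (val_pos h hv).ne'
  refine mul_right_cancel₀ (mul_ne_zero (pow_ne_zero q₁ hu0) (zpow_ne_zero (P q₂) hv0)) ?_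
  calc val θ φ u ^ (q₂ - q₁) * (val θ φ u ^ q₁ * val θ φ v ^ P q₂)
      = val θ φ u ^ q₂ * val θ φ v ^ P q₂ := by
        rw [← mul_assoc, ← pow_add, Nat.sub_add_cancel hlt.le]
    _ = val θ φ u ^ q₁ * val θ φ v ^ P q₁ := h4
    _ = val θ φ v ^ (P q₁ - P q₂) * (val θ φ u ^ q₁ * val θ φ v ^ P q₂) := by
        rw [zpow_sub₀ hv0, mul_left_comm, div_mul_cancel₀ _ (zpow_ne_zero _ hv0)]

end FA.DeloneNagell

end
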